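/-
S44 / X / PL, node P12 (WIP copy: the nodes R1, R3, P8, P11 are stated with `sorry` at the top; the
final file `Pur/LiftPt.lean` imports their final files instead).
Never import this file from a final file.
-/
import Fermat.Agent.S44.X.PL.Defs
import Fermat.Agent.S36.BP.Rad
import Fermat.Agent.S36.BP.Loc.Basic

set_option autoImplicit false

noncomputable section

namespace Fermat.Agent.S44.PL

open Fermat.Agent.S18 Fermat.Agent.S36.BP Fermat.Agent.KLB

section Rg

variable {K₀ E : Type*} [Field K₀] [Field E] [Algebra K₀ E] {A₀ : ValuationSubring K₀}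
  {R : Subring E} {p : ℕ} {ι : Type*} [Fintype ι] {V : ι → ValuationSubring E} {π : ι → E}

/-- R1 -/
theorem RegPt.isFractionRing (h : RegPt A₀ p R V π) : IsFractionRing R E := by
  sorry

/-- R3 -/
theorem RegPt.isIntegrallyClosed (h : RegPt A₀ p R V π) : IsIntegrallyClosed R := by
  sorry

end Rg

section P

variable {K₀ E F : Type*} [Field K₀] [Field E] [Field F] [Algebra K₀ E] [Algebra E F]
  [Algebra K₀ F] [IsScalarTower K₀ E F] {A₀ : ValuationSubring K₀} {p : ℕ} [Fact p.Prime]
  [FiniteDimensional E F] [IsGalois E F] {σ : F ≃ₐ[E] F}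
  {R : Subring E} {ι : Type*} [Fintype ι] {V : ι → ValuationSubring E} {π : ι → E}
  {W : ι → ZMod p → ValuationSubring F}

/-- P8 -/
theorem RegPt.rad_le (hdeg : Module.finrank E F = p) (hσ : σ ≠ 1) (h : RegPt A₀ p R V π)
    (c : ι) (hW : Sheets p σ (V c) (W c)) (𝔫 : Ideal (icl R F)) [𝔫.IsMaximal] (i : ZMod p)
    (hl : ∀ b : icl R F, (W c i).valuation (b : F) < 1 → b ∈ 𝔫) (b : icl R F) {r : E}
    (hr : r ∈ rad R) (hb : (b : F) = algebraMap E F r) : b ∈ 𝔫 := by
  sorry

/-- P11 -/
theorem RegPt.lift_dense (hdeg : Module.finrank E F = p) (hσ : σ ≠ 1) (h : RegPt A₀ p R V π)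
    (hW : ∀ c, Sheets p σ (V c) (W c)) (𝔫 : Ideal (icl R F)) [𝔫.IsMaximal] (l : ι → ZMod p)
    (hl : OnSheets R W 𝔫 l) (c : ι) {z : F} (hz : z ∈ locSub (icl R F) 𝔫) :
    ∃ r ∈ R, (W c (l c)).valuation (z - algebraMap E F r) < 1 ∧
      (RUnit (locSub (icl R F) 𝔫) z ↔ RUnit R r) := by
  sorry

end P

section LiftPtAux

variable {E F : Type*} [Field E] [Field F] [Algebra E F]

/-- An element of `F` integral over `R` lies in every valuation ring of `F` containing the image
of `R`. -/
theorem liftPt_mem_valSub_of_isIntegral {R : Subring E} (W : ValuationSubring F)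
    (hRW : ∀ r ∈ R, algebraMap E F r ∈ W) {z : F} (hz : IsIntegral R z) : z ∈ W := by
  obtain ⟨P, hP, hPz⟩ := hz
  have hz' : IsIntegral W z := by
    let f : R →+* W :=
      ((algebraMap E F).comp R.subtype).codRestrict W.toSubring (fun r => hRW r.1 r.2)
    refine ⟨P.map f, hP.map f, ?_⟩
    rw [Polynomial.eval₂_map]
    exact hPz
  obtain ⟨w, hw⟩ := (IsIntegrallyClosed.isIntegral_iff (R := W) (K := F)).mp hz'
  rw [← hw]
  exact w.2

/-- The image of an element of `R` in the integral closure of `R` in `F`. -/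
theorem liftPt_map_mem_icl {R : Subring E} {r : E} (hr : r ∈ R) : algebraMap E F r ∈ icl R F :=
  isIntegral_algebraMap (R := R) (A := F) (x := (⟨r, hr⟩ : R))

/-- The integral closure is integrally closed in `F`. -/
theorem liftPt_mem_icl_of_isIntegral {R : Subring E} (y : F) (hy : IsIntegral (icl R F) y) :
    y ∈ icl R F := by
  have hy' : IsIntegral (integralClosure R F) y := hy
  exact isIntegral_trans (R := R) (A := integralClosure R F) y hy'

end LiftPtAux

section P

variable {K₀ E F : Type*} [Field K₀] [Field E] [Field F] [Algebra K₀ E] [Algebra E F]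
  [Algebra K₀ F] [IsScalarTower K₀ E F] {A₀ : ValuationSubring K₀} {p : ℕ} [Fact p.Prime]
  [FiniteDimensional E F] [IsGalois E F] {σ : F ≃ₐ[E] F}
  {R : Subring E} {ι : Type*} [Fintype ι] {V : ι → ValuationSubring E} {π : ι → E}
  {W : ι → ZMod p → ValuationSubring F}

omit [Algebra K₀ F] [IsScalarTower K₀ E F] [FiniteDimensional E F] [IsGalois E F] [Fact p.Prime] in
/-- Elements of the local ring of the cover which vanish on the sheet are in the radical. -/
theorem RegPt.liftPt_mem_rad_of_val_lt (h : RegPt A₀ p R V π)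
    (hW : ∀ c, Sheets p σ (V c) (W c)) (𝔫 : Ideal (icl R F)) [𝔫.IsMaximal] (l : ι → ZMod p)
    (hl : OnSheets R W 𝔫 l) (c : ι) {y : F} (hy : y ∈ locSub (icl R F) 𝔫)
    (hv : (W c (l c)).valuation y < 1) : y ∈ rad (locSub (icl R F) 𝔫) := by
  obtain ⟨a, s, hs, e⟩ := hy
  refine mem_rad_locSub_iff.mpr ⟨a, s, hl c a ?_, hs, e⟩
  have hsW : (s : F) ∈ W c (l c) :=
    liftPt_mem_valSub_of_isIntegral (W c (l c))
      (fun r hr => ((hW c).lies (l c) r).2 ((h.thr c).le r hr)) s.2
  rw [← e, map_mul]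
  exact mul_lt_one_of_lt_of_le hv ((ValuationSubring.valuation_le_one_iff _ _).2 hsW)

/-- P12 -/
theorem RegPt.lift_isPt (hdeg : Module.finrank E F = p) (hσ : σ ≠ 1) (h : RegPt A₀ p R V π)
    (hW : ∀ c, Sheets p σ (V c) (W c)) (𝔫 : Ideal (icl R F)) [𝔫.IsMaximal] (l : ι → ZMod p)
    (hl : OnSheets R W 𝔫 l) : IsPt A₀ (locSub (icl R F) 𝔫) := by
  obtain ⟨c⟩ := h.nonempty
  -- the radical of `R` maps to the radical of the local ring of the cover
  have hrad : ∀ r ∈ rad R, algebraMap E F r ∈ rad (locSub (icl R F) 𝔫) := fun r hr =>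
    coe_mem_rad_locSub (a := (⟨algebraMap E F r, liftPt_map_mem_icl hr.1⟩ : icl R F))
      (h.rad_le hdeg hσ c (hW c) 𝔫 (l c) (hl c) _ hr rfl)
  refine ⟨fun a ha b hb => add_mem_rad_locSub ha hb, fun a ha => ?_, fun a ha => ?_,
    fun z hz => ?_, mem_locSub_of_isIntegral liftPt_mem_icl_of_isIntegral, ?_⟩
  · rw [IsScalarTower.algebraMap_apply K₀ E F]
    exact le_locSub (liftPt_map_mem_icl (h.pt.const_mem a ha))
  · rw [IsScalarTower.algebraMap_apply K₀ E F]
    exact hrad _ (h.pt.const_rad a ha)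
  · obtain ⟨r, hr, hv, -⟩ := h.lift_dense hdeg hσ hW 𝔫 l hl c hz
    obtain ⟨a, ha, har⟩ := h.pt.res r hr
    refine ⟨a, ha, ?_⟩
    have h1 : z - algebraMap E F r ∈ rad (locSub (icl R F) 𝔫) :=
      h.liftPt_mem_rad_of_val_lt hW 𝔫 l hl c
        (Subring.sub_mem _ hz (le_locSub (liftPt_map_mem_icl hr))) hv
    have h2 := add_mem_rad_locSub h1 (hrad _ har)
    rw [map_sub, ← IsScalarTower.algebraMap_apply K₀ E F, sub_add_sub_cancel] at h2
    exact h2
  · have := h.pt.noeth
    have := h.isFractionRing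
    have := h.isIntegrallyClosed
    have : IsNoetherianRing (integralClosure R F) :=
      IsIntegralClosure.isNoetherianRing R E F (integralClosure R F)
    have : IsNoetherianRing (icl R F) := ‹IsNoetherianRing (integralClosure R F)›
    exact isNoetherianRing_locSub

end P

end Fermat.Agent.S44.PL

end
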