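/-
S44 / X / PL : SKELETON (owner helper223).  Exact statements of all the nodes of the block; the
assemblies (`RegPt.unr`, `pl_main`) are proved here against the sorry'd nodes.
Never import this file from a final file.
-/
import Fermat.Agent.S44.X.PL.Defs
import Fermat.Agent.S18.Chart.Unif
import Fermat.Agent.S18.Abs.PrimeVal
import Fermat.Agent.S36.BP.Rad
import Fermat.Agent.S36.BP.Approx
import Fermat.Agent.S36.BP.OrdersAux
import Fermat.Agent.S36.BP.Loc.Basic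
import Fermat.Agent.S36.BP.LocalRoot.Abs
import Fermat.Agent.KLB.Abs.Free

set_option autoImplicit false

noncomputable section

namespace Fermat.Agent.S44.PL

open Fermat.Agent.S18 Fermat.Agent.S18.Abs Fermat.Agent.S36.BP Fermat.Agent.KLB

/-! ## Part L : local factorisation at a regular point (one field) -/
section L

variable {K₀ F : Type*} [Field K₀] [Field F] [Algebra K₀ F] {A₀ : ValuationSubring K₀}
  {R : Subring F}

/-- L1 -/
theorem exists_local_root_at {q : ℕ} (hunif : IsUnif A₀ (q : K₀)) (hR : IsPt A₀ R) {ι : Type*}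
    (V : ι → ValuationSubring F) (hpr : ∃ c, Through R (V c) ∧ Princ R (V c))
    (hqep : ∀ y : F, (q : F) * y ∈ R → (∀ c, Through R (V c) → y ∈ V c) → y ∈ R)
    {n : ℕ} {u : F} (hu : ∀ c, (V c).valuation u = 1) (hd : HorDivAt K₀ R n u) :
    ∃ g : F, RUnit R (g ^ n * u) := by
  sorry

variable {p : ℕ} {ι : Type*} [Fintype ι] {V : ι → ValuationSubring F} {π : ι → F}

/-- L2 -/
theorem RegPt.qep (h : RegPt A₀ p R V π) (z : F) (hz : (p : F) * z ∈ R) (hV : ∀ c, z ∈ V c) :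
    z ∈ R := by
  sorry

/-- L3 -/
theorem RegPt.factor (hA : IsUnif A₀ (p : K₀)) (h : RegPt A₀ p R V π) {n : ℕ} {u : F}
    (hu : u ≠ 0) (hd : HorDivAt K₀ R n u) (m : ι → ℤ)
    (hm : ∀ c, (V c).valuation u = (V c).valuation (p : F) ^ m c) :
    ∃ g ε : F, g ≠ 0 ∧ RUnit R ε ∧ u = ε * (∏ c, π c ^ m c) * g ^ n := by
  sorry

/-- L4 -/
theorem IsNode.regPt {Va Vb : ValuationSubring F} {x y : F} (h : IsNode A₀ p R Va Vb x y) :
    RegPt A₀ p R (fun b : Bool => cond b Va Vb) (fun b : Bool => cond b y x) := by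
  sorry

/-- L5 -/
theorem IsSmooth.regPt {V : ValuationSubring F} (h : IsSmooth A₀ p R V) :
    RegPt A₀ p R (fun _ : Unit => V) (fun _ : Unit => (p : F)) := by
  sorry

end L

/-! ## Part A : arithmetic of the vertical orders -/
section A

variable {F : Type*} [Field F]

/-- A1 -/
theorem ord_mod_const {p : ℕ} [Fact p.Prime] (σ : F ≃+* F) (W : ZMod p → ValuationSubring F)
    (hunif : ∀ i, IsUnif (W i) (p : F)) (hshift : ∀ i z, σ z ∈ W i ↔ z ∈ W (i + 1))
    {u β c : F} (hu : u ≠ 0) (hβ : β ≠ 0) (hσ : σ u = c * u * β ^ p) {e : ℤ}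
    (hc : ∀ i, (W i).valuation c = (W i).valuation (p : F) ^ ((p : ℤ) * e)) :
    ∃ c₀ : ZMod p, ∀ i (n : ℤ), (W i).valuation u = (W i).valuation (p : F) ^ n →
      (n : ZMod p) = c₀ := by
  sorry

end A

/-! ## Part C : cyclic extensions of prime degree -/
section C

variable {E F : Type*} [Field E] [Field F] [Algebra E F] [FiniteDimensional E F] [IsGalois E F]
  {p : ℕ} [Fact p.Prime] {σ : F ≃ₐ[E] F}

/-- C1 -/
theorem cyc_pow_eq_one (hdeg : Module.finrank E F = p) (σ : F ≃ₐ[E] F) : σ ^ p = 1 := by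
  sorry

/-- C2 -/
theorem cyc_trace (hdeg : Module.finrank E F = p) (hσ : σ ≠ 1) (z : F) :
    algebraMap E F (Algebra.trace E F z) = ∑ i ∈ Finset.range p, (σ ^ i) z := by
  sorry

/-- C3 -/
theorem cyc_fixed (hdeg : Module.finrank E F = p) (hσ : σ ≠ 1) {z : F} (hz : σ z = z) :
    ∃ e : E, algebraMap E F e = z := by
  sorry

/-- C4 -/
theorem cyc_isIntegral (hdeg : Module.finrank E F = p) (hσ : σ ≠ 1) (O : Subring E)
    (T : Subring F) (hT : ∀ e : E, algebraMap E F e ∈ T → e ∈ O) {z : F}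
    (hz : ∀ i : ℕ, (σ ^ i) z ∈ T) : IsIntegral O z := by
  sorry

end C

/-! ## Part S : completely split vertical valuations -/
section S

variable {E F : Type*} [Field E] [Field F] [Algebra E F]
  {p : ℕ} [Fact p.Prime] {σ : F ≃ₐ[E] F} {V : ValuationSubring E}
  {W : ZMod p → ValuationSubring F}

/-- S1 -/
theorem Sheets.pow_mem (h : Sheets p σ V W) (k : ℕ) (i : ZMod p) (z : F) :
    (σ ^ k) z ∈ W i ↔ z ∈ W (i + k) := by
  sorry

/-- S2 -/
theorem Sheets.val_pow_lt (h : Sheets p σ V W) (k : ℕ) (i : ZMod p) (z : F) :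
    (W i).valuation ((σ ^ k) z) < 1 ↔ (W (i + k)).valuation z < 1 := by
  sorry

/-- S2' -/
theorem Sheets.val_map_le (h : Sheets p σ V W) (i : ZMod p) (z : E) :
    (W i).valuation (algebraMap E F z) ≤ 1 ↔ V.valuation z ≤ 1 := by
  sorry

/-- S2'' -/
theorem Sheets.val_map_lt (h : Sheets p σ V W) (i : ZMod p) (z : E) :
    (W i).valuation (algebraMap E F z) < 1 ↔ V.valuation z < 1 := by
  sorry

/-- S2''' -/
theorem Sheets.val_map_eq (h : Sheets p σ V W) (i : ZMod p) (z : E) :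
    (W i).valuation (algebraMap E F z) = 1 ↔ V.valuation z = 1 := by
  sorry

/-- S3 -/
theorem Sheets.exists_sep (h : Sheets p σ V W) (i : ZMod p) (N : ℕ) :
    ∃ e : F, (W i).valuation (e - 1) < 1 ∧
      ∀ j, j ≠ i → (W j).valuation e ≤ (W j).valuation (p : F) ^ N := by
  sorry

variable [FiniteDimensional E F] [IsGalois E F]

/-- S4 : residue degree one -/
theorem Sheets.dense (hdeg : Module.finrank E F = p) (hσ : σ ≠ 1) (h : Sheets p σ V W)
    (i : ZMod p) {z : F} (hz : z ∈ W i) :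
    ∃ z' ∈ V, (W i).valuation (z - algebraMap E F z') < 1 := by
  sorry

/-- S5 -/
theorem Sheets.isIntegral_iff (hdeg : Module.finrank E F = p) (hσ : σ ≠ 1) (h : Sheets p σ V W)
    (z : F) : IsIntegral V.toSubring z ↔ ∀ i, z ∈ W i := by
  sorry

/-- S6 -/
theorem Sheets.unr (hdeg : Module.finrank E F = p) (hσ : σ ≠ 1) (h : Sheets p σ V W) :
    Unr V.toSubring E F := by
  sorry

end S

/-! ## Part U : `Unr` over a factorial ring is a codimension one condition -/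
section U

variable {E F : Type*} [Field E] [Field F] [Algebra E F] [FiniteDimensional E F]

/-- U1 -/
theorem unr_of_forall_prime {R : Subring E} [UniqueFactorizationMonoid R] [IsFractionRing R E]
    (h : ∀ (ϖ : R) (hϖ : Prime ϖ), Unr (primeValSubring E ϖ hϖ).toSubring E F) : Unr R E F := by
  sorry

end U

/-! ## Part R : ring theory of a regular point -/
section Rg

variable {K₀ E : Type*} [Field K₀] [Field E] [Algebra K₀ E] {A₀ : ValuationSubring K₀}
  {R : Subring E} {p : ℕ} {ι : Type*} [Fintype ι] {V : ι → ValuationSubring E} {π : ι → E}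

/-- R1 -/
theorem RegPt.isFractionRing (h : RegPt A₀ p R V π) : IsFractionRing R E := by
  sorry

/-- R2 -/
theorem RegPt.ufd (h : RegPt A₀ p R V π) : UniqueFactorizationMonoid R := by
  sorry

/-- R3 -/
theorem RegPt.isIntegrallyClosed (h : RegPt A₀ p R V π) : IsIntegrallyClosed R := by
  sorry

/-- R4 -/
theorem RegPt.prime (h : RegPt A₀ p R V π) (c : ι) : Prime (⟨π c, h.mem c⟩ : R) := by
  sorry

/-- R5 -/
theorem RegPt.isLocSub (h : RegPt A₀ p R V π) (c : ι) :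
    IsLocSub (ndvd (h.prime c)) (V c).toSubring := by
  sorry

/-- R6 -/
theorem RegPt.pir (h : RegPt A₀ p R V π) (c : ι) :
    IsPrincipalIdealRing (R ⧸ Ideal.span {(⟨π c, h.mem c⟩ : R)}) := by
  sorry

/-- R7 -/
theorem RegPt.pi_mem_rad (h : RegPt A₀ p R V π) (c : ι) : π c ∈ rad R := by
  sorry

/-- R8 -/
theorem RegPt.primeVal_cases (hA : IsUnif A₀ (p : K₀)) (h : RegPt A₀ p R V π)
    [UniqueFactorizationMonoid R] [IsFractionRing R E] (ϖ : R) (hϖ : Prime ϖ) :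
    (∃ c, primeValSubring E ϖ hϖ = V c) ∨
      (∀ a : K₀, algebraMap K₀ E a ∈ primeValSubring E ϖ hϖ) := by
  sorry

end Rg

/-! ## Part P : purity -/
section P

variable {K₀ E F : Type*} [Field K₀] [Field E] [Field F] [Algebra K₀ E] [Algebra E F]
  [Algebra K₀ F] [IsScalarTower K₀ E F] {A₀ : ValuationSubring K₀} {p : ℕ} [Fact p.Prime]
  [FiniteDimensional E F] [IsGalois E F] {σ : F ≃ₐ[E] F}
  {R : Subring E} {ι : Type*} [Fintype ι] {V : ι → ValuationSubring E} {π : ι → E}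
  {W : ι → ZMod p → ValuationSubring F}

/-- P1 (assembly) -/
theorem RegPt.unr (hdeg : Module.finrank E F = p) (hσ : σ ≠ 1) (hA : IsUnif A₀ (p : K₀))
    (h : RegPt A₀ p R V π) (hW : ∀ c, Sheets p σ (V c) (W c)) (hH : HorUnr K₀ E F) :
    Unr R E F := by
  haveI := h.ufd
  haveI := h.isFractionRing
  refine unr_of_forall_prime fun ϖ hϖ => ?_
  rcases h.primeVal_cases hA ϖ hϖ with ⟨c, hc⟩ | hK
  · rw [hc]
    exact (hW c).unr hdeg hσ
  · exact hH _ hK

/-- P2 -/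
theorem RegPt.exists_basis (h : RegPt A₀ p R V π) :
    ∃ (n : ℕ) (b : Module.Basis (Fin n) E F), (∀ i, IsIntegral R (b i)) ∧
      ∀ z : F, IsIntegral R z →
        ∃ a : Fin n → E, (∀ i, a i ∈ R) ∧ z = ∑ i, algebraMap E F (a i) * b i := by
  sorry

omit [Fact p.Prime] [IsGalois E F] in
/-- P3 -/
theorem exists_trace_one [Algebra.IsSeparable E F] {R : Subring E}
    (hadd : ∀ a ∈ rad R, ∀ b ∈ rad R, a + b ∈ rad R)
    (hic : ∀ e : E, IsIntegral R e → e ∈ R) (hU : Unr R E F) {n : ℕ}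
    (b : Module.Basis (Fin n) E F) (hb : ∀ i, IsIntegral R (b i))
    (hspan : ∀ z : F, IsIntegral R z →
      ∃ a : Fin n → E, (∀ i, a i ∈ R) ∧ z = ∑ i, algebraMap E F (a i) * b i) :
    ∃ z : F, IsIntegral R z ∧ Algebra.trace E F z = 1 := by
  sorry

/-- P4 -/
theorem isIntegral_inv_unit_add (hdeg : Module.finrank E F = p) (hσ : σ ≠ 1) {R : Subring E}
    (hadd : ∀ a ∈ rad R, ∀ b ∈ rad R, a + b ∈ rad R)
    (hic : ∀ e : E, IsIntegral R e → e ∈ R) {c m : E} (hc : RUnit R c) (hm : m ∈ rad R) {z : F}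
    (hz : IsIntegral R z) :
    algebraMap E F c + algebraMap E F m * z ≠ 0 ∧
      IsIntegral R (algebraMap E F c + algebraMap E F m * z)⁻¹ := by
  sorry

/-- P5 : the separating element -/
theorem exists_sep_elt (hdeg : Module.finrank E F = p) (hσ : σ ≠ 1) {R : Subring E}
    (hadd : ∀ a ∈ rad R, ∀ b ∈ rad R, a + b ∈ rad R)
    (hic : ∀ e : E, IsIntegral R e → e ∈ R) (hp : (p : E) ∈ rad R)
    (hun : ∀ k : ℕ, ¬ p ∣ k → RUnit R (k : E)) {z : F} (hz : IsIntegral R z)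
    (htr : Algebra.trace E F z = 1) :
    ∃ w : F, IsIntegral R w ∧
      ∀ k : ℕ, ¬ p ∣ k → (σ ^ k) w - w ≠ 0 ∧ IsIntegral R ((σ ^ k) w - w)⁻¹ := by
  sorry

/-- P6 : `S / P_i = R / (π c)` -/
theorem RegPt.dense (hdeg : Module.finrank E F = p) (hσ : σ ≠ 1) (h : RegPt A₀ p R V π) (c : ι)
    (hW : Sheets p σ (V c) (W c)) {z : F} (hz : IsIntegral R z) (i : ZMod p) :
    ∃ r ∈ R, (W c i).valuation (z - algebraMap E F r) < 1 := by
  sorry

/-- P7 : `⋂ P_i = π c S` -/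
theorem RegPt.icl_div (hdeg : Module.finrank E F = p) (hσ : σ ≠ 1) (h : RegPt A₀ p R V π) (c : ι)
    (hW : Sheets p σ (V c) (W c)) {z : F} (hz : IsIntegral R z)
    (hv : ∀ i, (W c i).valuation z < 1) : IsIntegral R (z / algebraMap E F (π c)) := by
  sorry

/-- P7' -/
theorem RegPt.icl_of_pow_mul (hdeg : Module.finrank E F = p) (hσ : σ ≠ 1) (h : RegPt A₀ p R V π)
    (c : ι) (hW : Sheets p σ (V c) (W c)) {z : F} (m : ℕ)
    (hz : IsIntegral R (algebraMap E F (π c) ^ m * z)) (hv : ∀ i, z ∈ W c i) :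
    IsIntegral R z := by
  sorry

/-- P8 -/
theorem RegPt.rad_le (hdeg : Module.finrank E F = p) (hσ : σ ≠ 1) (h : RegPt A₀ p R V π)
    (c : ι) (hW : Sheets p σ (V c) (W c)) (𝔫 : Ideal (icl R F)) [𝔫.IsMaximal] (i : ZMod p)
    (hl : ∀ b : icl R F, (W c i).valuation (b : F) < 1 → b ∈ 𝔫) (b : icl R F) {r : E}
    (hr : r ∈ rad R) (hb : (b : F) = algebraMap E F r) : b ∈ 𝔫 := by
  sorry

/-- P9 -/
theorem RegPt.exists_max (hdeg : Module.finrank E F = p) (hσ : σ ≠ 1) (h : RegPt A₀ p R V π)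
    (hW : ∀ c, Sheets p σ (V c) (W c)) (c₀ : ι) (i₀ : ZMod p) :
    ∃ (𝔫 : Ideal (icl R F)) (l : ι → ZMod p), 𝔫.IsMaximal ∧ l c₀ = i₀ ∧ OnSheets R W 𝔫 l := by
  sorry

/-- P10 : the idempotent-like element: a unit at `𝔫`, vanishing on the other sheets over `V c` -/
theorem RegPt.exists_cut (hdeg : Module.finrank E F = p) (hσ : σ ≠ 1) (h : RegPt A₀ p R V π)
    (hW : ∀ c, Sheets p σ (V c) (W c)) {w : F} (hw : IsIntegral R w)
    (hsep : ∀ k : ℕ, ¬ p ∣ k → (σ ^ k) w - w ≠ 0 ∧ IsIntegral R ((σ ^ k) w - w)⁻¹)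
    (𝔫 : Ideal (icl R F)) [𝔫.IsMaximal] (l : ι → ZMod p) (hl : OnSheets R W 𝔫 l) (c : ι) :
    ∃ e : icl R F, e ∉ 𝔫 ∧ ∀ i, i ≠ l c → (W c i).valuation (e : F) < 1 := by
  sorry

/-- P11 -/
theorem RegPt.lift_dense (hdeg : Module.finrank E F = p) (hσ : σ ≠ 1) (h : RegPt A₀ p R V π)
    (hW : ∀ c, Sheets p σ (V c) (W c)) (𝔫 : Ideal (icl R F)) [𝔫.IsMaximal] (l : ι → ZMod p)
    (hl : OnSheets R W 𝔫 l) (c : ι) {z : F} (hz : z ∈ locSub (icl R F) 𝔫) :
    ∃ r ∈ R, (W c (l c)).valuation (z - algebraMap E F r) < 1 ∧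
      (RUnit (locSub (icl R F) 𝔫) z ↔ RUnit R r) := by
  sorry

/-- P12 -/
theorem RegPt.lift_isPt (hdeg : Module.finrank E F = p) (hσ : σ ≠ 1) (h : RegPt A₀ p R V π)
    (hW : ∀ c, Sheets p σ (V c) (W c)) (𝔫 : Ideal (icl R F)) [𝔫.IsMaximal] (l : ι → ZMod p)
    (hl : OnSheets R W 𝔫 l) : IsPt A₀ (locSub (icl R F) 𝔫) := by
  sorry

/-- P13 -/
theorem RegPt.lift_through (hdeg : Module.finrank E F = p) (hσ : σ ≠ 1) (h : RegPt A₀ p R V π)
    (hW : ∀ c, Sheets p σ (V c) (W c)) {w : F} (hw : IsIntegral R w)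
    (hsep : ∀ k : ℕ, ¬ p ∣ k → (σ ^ k) w - w ≠ 0 ∧ IsIntegral R ((σ ^ k) w - w)⁻¹)
    (𝔫 : Ideal (icl R F)) [𝔫.IsMaximal] (l : ι → ZMod p) (hl : OnSheets R W 𝔫 l) (c : ι) :
    Through (locSub (icl R F) 𝔫) (W c (l c)) := by
  sorry

/-- P14 -/
theorem RegPt.lift_princ (hdeg : Module.finrank E F = p) (hσ : σ ≠ 1) (h : RegPt A₀ p R V π)
    (hW : ∀ c, Sheets p σ (V c) (W c)) {w : F} (hw : IsIntegral R w)
    (hsep : ∀ k : ℕ, ¬ p ∣ k → (σ ^ k) w - w ≠ 0 ∧ IsIntegral R ((σ ^ k) w - w)⁻¹)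
    (𝔫 : Ideal (icl R F)) [𝔫.IsMaximal] (l : ι → ZMod p) (hl : OnSheets R W 𝔫 l) (c : ι)
    {r : F} (hr : r ∈ locSub (icl R F) 𝔫) (hv : (W c (l c)).valuation r < 1) :
    r / algebraMap E F (π c) ∈ locSub (icl R F) 𝔫 := by
  sorry

/-- P15 (assembly) : the points of the cover above a regular point are regular. -/
theorem RegPt.lift (hdeg : Module.finrank E F = p) (hσ : σ ≠ 1) (h : RegPt A₀ p R V π)
    (hW : ∀ c, Sheets p σ (V c) (W c)) {w : F} (hw : IsIntegral R w)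
    (hsep : ∀ k : ℕ, ¬ p ∣ k → (σ ^ k) w - w ≠ 0 ∧ IsIntegral R ((σ ^ k) w - w)⁻¹)
    (𝔫 : Ideal (icl R F)) [𝔫.IsMaximal] (l : ι → ZMod p) (hl : OnSheets R W 𝔫 l) :
    RegPt A₀ p (locSub (icl R F) 𝔫) (fun c => W c (l c)) (fun c => algebraMap E F (π c)) where
  nonempty := h.nonempty
  pt := h.lift_isPt hdeg hσ hW 𝔫 l hl
  thr := fun c => h.lift_through hdeg hσ hW hw hsep 𝔫 l hl c
  unif := fun c => (hW c).unif (l c)
  mem := fun c => le_locSub (isIntegral_algebraMap (R := R) (x := (⟨π c, h.mem c⟩ : R)))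
  val_self := fun c => by
    sorry
  val_other := fun c c' hcc => ((hW c').val_map_eq (l c') (π c)).2 (h.val_other c c' hcc)
  princ := fun c r hr hv => h.lift_princ hdeg hσ hW hw hsep 𝔫 l hl c hr hv
  prod := by
    rw [← map_prod, h.prod, map_natCast]

end P

/-! ## The export -/
section Main

variable {K₀ E F : Type*} [Field K₀] [Field E] [Field F] [Algebra K₀ E] [Algebra E F]
  [Algebra K₀ F] [IsScalarTower K₀ E F] {A₀ : ValuationSubring K₀} {p : ℕ} [Fact p.Prime]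
  [FiniteDimensional E F] [IsGalois E F] {σ : F ≃ₐ[E] F}

/-- **EXPORT (slope formula, case `p ∣ v(a)`).**  `u` is a function on the cover `Y`, defined over
the inertia field, whose horizontal divisor is divisible by `p`, with `σ u = a u β ^ p`, `a` a
constant with `p ∣ v(a)`.  Then there is a constant `c₀ : ZMod p` such that on the sheet `Wa 0`:
* at a node `x y = p` of `X`:  `u = p ^ n * ε * x ^ k * g ^ p`, `k = c₀` in `ZMod p`,
* at a smooth point of `X` on `Va`:  `u = p ^ n * ε * g ^ p`,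
where `g` is a unit of `Wa 0` and `ε` is congruent modulo the maximal ideal of `Wa 0` to a unit `r`
of the local ring `R` of `X`. -/
theorem pl_main (hdeg : Module.finrank E F = p) (hσ : σ ≠ 1) (hA : IsUnif A₀ (p : K₀))
    {Va Vb : ValuationSubring E} {Wa Wb : ZMod p → ValuationSubring F}
    (hVa : ∀ a ∈ A₀, algebraMap K₀ E a ∈ Va) (hVb : ∀ a ∈ A₀, algebraMap K₀ E a ∈ Vb)
    (hWa : Sheets p σ Va Wa) (hWb : Sheets p σ Vb Wb) (hH : HorUnr K₀ E F)
    {u β : F} {a : K₀} {e : ℤ} (hu : u ≠ 0) (hβ : β ≠ 0)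
    (hσu : σ u = algebraMap K₀ F a * u * β ^ p)
    (ha : A₀.valuation a = A₀.valuation (p : K₀) ^ ((p : ℤ) * e)) (hd : HorDiv K₀ p u) :
    ∃ c₀ : ZMod p,
      (∀ (R : Subring E) (x y : E), IsNode A₀ p R Va Vb x y →
        ∃ (n k : ℤ) (g : F) (r : E), (Wa 0).valuation g = 1 ∧ RUnit R r ∧ (k : ZMod p) = c₀ ∧
          (Wa 0).valuation (u / ((p : F) ^ n * algebraMap E F x ^ k * g ^ p) - algebraMap E F r)
            < 1) ∧
      (∀ R : Subring E, IsSmooth A₀ p R Va →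
        ∃ (n : ℤ) (g : F) (r : E), (Wa 0).valuation g = 1 ∧ RUnit R r ∧
          (Wa 0).valuation (u / ((p : F) ^ n * g ^ p) - algebraMap E F r) < 1) := by
  sorry

end Main

end Fermat.Agent.S44.PL

end
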