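/-
S44 / X / PL : SKELETON 2 (owner helper223): one sheet ⇒ `p` sheets; horizontal places.
Never import this file from a final file.
-/
import Fermat.Agent.S44.X.PL.Defs2
import Fermat.Agent.S18.Chart.Unif
import Fermat.Agent.S18.Abs.PrimeVal
import Fermat.Agent.S36.BP.Rad
import Fermat.Agent.S36.BP.Approx
import Fermat.Agent.S36.BP.OrdersAux

set_option autoImplicit false

noncomputable section

namespace Fermat.Agent.S44.PL

open Fermat.Agent.S18 Fermat.Agent.S18.Abs Fermat.Agent.S36.BP Fermat.Agent.KLB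

section T

variable {E F : Type*} [Field E] [Field F] [Algebra E F] {p : ℕ} [Fact p.Prime]
  {σ : F ≃ₐ[E] F} {V : ValuationSubring E} {W : ValuationSubring F}

/-- T0 -/
theorem tw_zero (σ : F ≃ₐ[E] F) (W : ValuationSubring F) : tw σ W (0 : ZMod p) = W := by
  sorry

/-- T1 -/
theorem tw_lies (σ : F ≃ₐ[E] F) (hl : ∀ z : E, algebraMap E F z ∈ W ↔ z ∈ V) (i : ZMod p)
    (z : E) : algebraMap E F z ∈ tw σ W i ↔ z ∈ V := by
  sorry

/-- T2 -/
theorem tw_unif (σ : F ≃ₐ[E] F) {ϖ : E} (h : IsUnif W (algebraMap E F ϖ)) (i : ZMod p) :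
    IsUnif (tw σ W i) (algebraMap E F ϖ) := by
  sorry

/-- T3 -/
theorem tw_shift (hpow : σ ^ p = 1) (W : ValuationSubring F) (i : ZMod p) (z : F) :
    σ z ∈ tw σ W i ↔ z ∈ tw σ W (i + 1) := by
  sorry

/-- T4 -/
theorem tw_inj (hpow : σ ^ p = 1) (hns : ¬ ∀ z, σ z ∈ W ↔ z ∈ W) :
    Function.Injective (tw σ W : ZMod p → ValuationSubring F) := by
  sorry

omit [Fact p.Prime] in
/-- T5 : a valuation ring with `e = f = 1` is not stable under a nontrivial automorphism -/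
theorem not_stable_of_dense (hσ : σ ≠ 1) {ϖ : E} (hunif : IsUnif W (algebraMap E F ϖ))
    (hdense : ∀ z ∈ W, ∃ e : E, W.valuation (z - algebraMap E F e) < 1) :
    ¬ ∀ z, σ z ∈ W ↔ z ∈ W := by
  sorry

/-- T6 (assembly) : one sheet with `e = f = 1` gives the `p` sheets -/
theorem sheets_of_one (hpow : σ ^ p = 1) (hσ : σ ≠ 1)
    (hl : ∀ z : E, algebraMap E F z ∈ W ↔ z ∈ V) (hunif : IsUnif W (p : F))
    (hdense : ∀ z ∈ W, ∃ e : E, W.valuation (z - algebraMap E F e) < 1) :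
    Sheets p σ V (tw σ W) where
  lies := tw_lies σ hl
  shift := tw_shift hpow W
  inj := tw_inj hpow (not_stable_of_dense hσ (ϖ := (p : E)) (by rwa [map_natCast]) hdense)
  unif := fun i => by
    have := tw_unif σ (ϖ := (p : E)) (W := W) (by rwa [map_natCast]) i
    rwa [map_natCast] at this

/-- C5 : Artin -/
theorem cyc_of_fixed (σ : F ≃ₐ[E] F) (hpow : σ ^ p = 1) (hσ : σ ≠ 1)
    (hfix : ∀ z, σ z = z → z ∈ (algebraMap E F).range) :
    FiniteDimensional E F ∧ IsGalois E F ∧ Module.finrank E F = p := by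
  sorry

variable [FiniteDimensional E F] [IsGalois E F]

/-- G : `Sheets.unr` for an arbitrary uniformiser -/
theorem SheetsG.unr (hdeg : Module.finrank E F = p) (hσ : σ ≠ 1) {ϖ : E}
    {W : ZMod p → ValuationSubring F} (h : SheetsG p σ V ϖ W) : Unr V.toSubring E F := by
  sorry

/-- H1 : the inert case (residue characteristic prime to `p`) -/
theorem unr_of_stable (hdeg : Module.finrank E F = p) (hσ : σ ≠ 1) {ϖ : E}
    (hp : ((p : E))⁻¹ ∈ V) (hl : ∀ z : E, algebraMap E F z ∈ W ↔ z ∈ V)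
    (hunif : IsUnif W (algebraMap E F ϖ)) (hst : ∀ z, σ z ∈ W ↔ z ∈ W) :
    Unr V.toSubring E F := by
  sorry

/-- H2 (assembly) -/
theorem unr_of_unram (hdeg : Module.finrank E F = p) (hpow : σ ^ p = 1) (hσ : σ ≠ 1) {ϖ : E}
    (hp : ((p : E))⁻¹ ∈ V) (hl : ∀ z : E, algebraMap E F z ∈ W ↔ z ∈ V)
    (hunif : IsUnif W (algebraMap E F ϖ)) : Unr V.toSubring E F := by
  by_cases hst : ∀ z, σ z ∈ W ↔ z ∈ W
  · exact unr_of_stable hdeg hσ hp hl hunif hst
  · exact SheetsG.unr hdeg hσ (ϖ := ϖ) (W := tw σ W)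
      ⟨tw_lies σ hl, tw_shift hpow W, tw_inj hpow hst, tw_unif σ hunif⟩

end T

section R9

variable {E : Type*} [Field E] {R : Subring E} [UniqueFactorizationMonoid R] [IsFractionRing R E]

/-- R9 -/
theorem isUnif_primeVal (ϖ : R) (hϖ : Prime ϖ) : IsUnif (primeValSubring E ϖ hϖ) (ϖ : E) := by
  sorry

end R9

end Fermat.Agent.S44.PL

end
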